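import Fermat.Agent.LT.General.Interface
import Fermat.Agent.LT.General.Period.Lower
import Fermat.Agent.LT.Lift.Adapter

/-!
# A general Bianchi form as the input of the lift
-/

set_option autoImplicit false
set_option linter.unusedSectionVars false

noncomputable section

open MeasureTheory
open scoped ENNReal MatrixGroups Modular QuadraticAlgebra
open FermatAgent.LT (EisInt eisIdeal redMat diagMat zmodMat zmodToEis cplxMat heckeRep heckeRepMod)
open FermatAgent.LT.Lift

namespace FermatAgent.LTG.Lift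

theorem dvd_three (n : ℕ) : n ∣ 3 * n := dvd_mul_left n 3

instance neZero_three_mul (n : ℕ) [NeZero n] : NeZero (3 * n) :=
  ⟨mul_ne_zero (by norm_num) (NeZero.ne n)⟩

/-- The comparison of level groups. -/
def levelHom (n : ℕ) : GN (3 * n) →* GL (Fin 2) (EisInt ⧸ eisIdeal n) :=
  Matrix.GeneralLinearGroup.map (toQQ (dvd_three n))

theorem redMat_eisE (n : ℕ) (γ : GO) :
    redMat n (Matrix.GeneralLinearGroup.map eisE γ) = levelHom n (toN (3 * n) γ) := by
  apply Units.ext
  ext i j : 1
  show Ideal.Quotient.mk (eisIdeal n) (eisE (γ.val i j)) =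
    toQQ (dvd_three n) (redO (3 * n) (γ.val i j))
  rw [toQQ_redO]

/-- Split primes. -/
def splitPrimeOf {n : ℕ} (h3 : 3 ∣ n) (p : ℕ) (π : EO) (hp : p.Prime) (hpn : ¬ p ∣ n)
    (hπ : π.norm = (p : ℤ)) : SplitPrime (3 * n) where
  p := p
  π := π
  prime := hp
  ne_three h := hpn (h ▸ h3)
  norm_eq := hπ
  coprime := by
    rw [hp.coprime_iff_not_dvd]
    intro h
    rcases hp.dvd_mul.1 h with h | h
    · exact hpn (((Nat.prime_dvd_prime_iff_eq hp Nat.prime_three).1 h) ▸ h3)
    · exact hpn h

theorem exists_levelHom_eq {n : ℕ} [NeZero n] {h : GN (3 * n)} (hh : Form.wc (3 * n) h ≠ 0) :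
    ∃ (u : (EisInt ⧸ eisIdeal n)ˣ) (r : GL (Fin 2) (ZMod n)),
      levelHom n h = zmodMat n r * Matrix.GeneralLinearGroup.scalar (Fin 2) u :=
  exists_toQQ_eq (dvd_three n) rfl hh

variable {S : Setup} (B : BianchiForm S) [NeZero B.N]

/-- The input of the lift. -/
def formOf : Form (3 * B.N) where
  φ p h := B.φ (toL p) (levelHom B.N h)
  invariant γ p h := by
    show B.φ (toL (γ • p)) (levelHom B.N (toN (3 * B.N) γ * h)) = _
    rw [map_mul, ← redMat_eisE, smul_def', toL_smul, ← cplxMat_eisE, B.invariant]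
  continuous h := (B.continuous _).comp continuous_toL
  bounded := B.bounded.imp fun C hC p h ↦ hC _ _
  sph h p ε hε := by
    rw [setIntegral_hball (fun Q ↦ B.φ Q (levelHom B.N h)) p ε]
    exact B.sph0 _ (toL p) ε hε

theorem isEigen_formOf (p : ℕ) (π : EO) (hp : p.Prime) (hpm : ¬ p ∣ B.N)
    (hπ : π.norm = (p : ℤ)) :
    (formOf B).IsEigen (splitPrimeOf (Period.three_dvd_N B) p π hp hpm hπ) ((√(p : ℝ) : ℂ) * B.c (eisE π)) := by
  classical
  set P := splitPrimeOf (Period.three_dvd_N B) p π hp hpm hπ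
  intro Q h
  have hnorm : Complex.normSq (eisE π : ℂ) = p := by
    rw [coe_eisE, normSq_embC, hπ, Int.cast_natCast]
  have hπ0 : (eisE π : ℂ) ≠ 0 := P.embC_π_ne_zero
  obtain ⟨u, hu⟩ := (isUnit_redO_pi P).map (toQQ (dvd_three B.N))
  have hu' : (u : EisInt ⧸ eisIdeal (B.N)) = Ideal.Quotient.mk _ (eisE π) := by
    rw [hu]; exact toQQ_redO _ π
  have key := B.hecke (eisE π) hπ0 p u (FermatAgent.LT.Period.prime_of_normSq hp hnorm) hp hnorm hu'
    (toL Q) (levelHom B.N h)
  set e : Option (Fin p) → Option EisInt := Option.map fun k : Fin p ↦ ((k : ℕ) : EisInt)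
  have hinj : Function.Injective e := Option.map_injective fun a b hab ↦ by
    apply Fin.ext
    have h' : ((a : ℕ) : ℂ) = ((b : ℕ) : ℂ) := by exact_mod_cast congrArg Subtype.val hab
    exact_mod_cast h'
  have himg : (Finset.range p).image (fun k : ℕ => some (k : EisInt)) ∪ {none} =
      Finset.univ.image e := by
    ext x
    simp only [Finset.mem_union, Finset.mem_image, Finset.mem_range, Finset.mem_singleton,
      Finset.mem_univ, true_and]
    constructor
    · rintro (⟨k, hk, rfl⟩ | rfl)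
      · exact ⟨some ⟨k, hk⟩, rfl⟩
      · exact ⟨none, rfl⟩
    · rintro ⟨i | k, rfl⟩
      · exact Or.inr rfl
      · exact Or.inl ⟨k, k.2, rfl⟩
  rw [himg, Finset.sum_image fun a _ b _ h ↦ hinj h] at key
  refine (Finset.sum_congr rfl fun i _ ↦ ?_).trans key
  have hval : (P.right (1, i)).1 = P.rep i := Matrix.one_mul _
  show B.φ (toL (P.dC (P.right (1, i)) • Q)) (levelHom B.N (P.dN (P.right (1, i)) * h)) = _
  rw [map_mul, toL_smul]
  have hC : P.dC (P.right (1, i)) = heckeRep (eisE π) hπ0 (e i) := by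
    apply Units.ext
    show (P.right (1, i)).1.map embC = _
    rw [hval]
    rcases i with _ | b
    · show _ = (heckeRep (eisE π) hπ0 none).val
      ext a b
      fin_cases a <;> fin_cases b <;> simp [SplitPrime.rep, heckeRep, coe_eisE, P, splitPrimeOf]
    · show _ = (heckeRep (eisE π) hπ0 (some ((b : ℕ) : EisInt))).val
      ext a c
      fin_cases a <;> fin_cases c <;> simp [SplitPrime.rep, heckeRep, coe_eisE, P, splitPrimeOf]
  have hN : levelHom B.N (P.dN (P.right (1, i))) = heckeRepMod (B.N) u (e i) := by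
    apply Units.ext
    show ((P.right (1, i)).1.map (redO (3 * B.N))).map (toQQ (dvd_three B.N)) = _
    rw [hval]
    rcases i with _ | b
    · show _ = (heckeRepMod (B.N) u none).val
      ext a b
      fin_cases a <;> fin_cases b <;>
        simp [SplitPrime.rep, heckeRepMod, diagMat, P, splitPrimeOf, hu', toQQ_redO]
    · show _ = (heckeRepMod (B.N) u (some ((b : ℕ) : EisInt))).val
      ext a c
      fin_cases a <;> fin_cases c <;>
        simp [SplitPrime.rep, heckeRepMod, P, splitPrimeOf, hu', toQQ_redO]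
  rw [hC, hN]

/-- The period sum of the input of the lift does not vanish when the period of the form does not. -/
theorem sum_wc_slab_ne_zero (hB : B.period ≠ 0) :
    ∑ h, Form.wc (3 * B.N) h * (formOf B).slab h 0 ≠ 0 := by
  classical
  obtain ⟨C, hC⟩ := B.bounded
  set N := 3 * B.N
  set n := B.N
  set f : GL (Fin 2) (EisInt ⧸ eisIdeal n) → ℂ := fun g ↦
    ∫ τ in (𝒟 : Set UpperHalfPlane), B.φ (FermatAgent.LT.H3.ofUHP τ) g with hf
  have hfin : IsFiniteMeasure ((volume : Measure UpperHalfPlane).restrict 𝒟) :=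
    isFiniteMeasure_restrict.2 volume_fd_ne_top
  have hof : Continuous FermatAgent.LT.H3.ofUHP :=
    continuous_induced_rng.2 (show Continuous fun τ : UpperHalfPlane ↦ ((τ.re : ℂ), τ.im) from
      (Complex.continuous_ofReal.comp UpperHalfPlane.continuous_re).prodMk
        UpperHalfPlane.continuous_im)
  have hP : B.period = ∑ r : GL (Fin 2) (ZMod n), f (zmodMat n r) := by
    rw [BianchiForm.period]
    exact integral_finsetSum _ fun r _ ↦ Integrable.of_bound
      ((B.continuous _).comp hof).aestronglyMeasurable C (.of_forall fun τ ↦ hC _ _)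
  have hslab : ∀ h, (formOf B).slab h 0 = f (levelHom B.N h) := fun h ↦ by
    refine integral_congr_ae (.of_forall fun τ ↦ ?_)
    show B.φ (toL (planePt (τ, 0))) _ = _
    congr 1
    refine FermatAgent.LT.H3.ext (Complex.ext ?_ ?_) ?_ <;>
      simp [toL, planePt, FermatAgent.LT.H3.ofUHP]
  have hscal : ∀ (r : GL (Fin 2) (ZMod n)) (u : (EisInt ⧸ eisIdeal n)ˣ),
      f (zmodMat n r * Matrix.GeneralLinearGroup.scalar (Fin 2) u) = f (zmodMat n r) :=
    fun r u ↦ integral_congr_ae (.of_forall fun τ ↦ B.scalar u _ _)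
  -- lifts of rational classes
  have hlift : ∀ r : GL (Fin 2) (ZMod n), ∃ x : GL (Fin 2) (ZMod N),
      levelHom B.N (Matrix.GeneralLinearGroup.map (algebraMap (ZMod N) (EMod N)) x) =
        zmodMat n r := by
    intro r
    set M : Matrix (Fin 2) (Fin 2) (ZMod N) := fun i j ↦ ((r.val i j).val : ZMod N)
    have hM : M.map (ZMod.castHom (dvd_three B.N) (ZMod n)) = r.val := by
      ext i j
      show ZMod.castHom (dvd_three B.N) (ZMod n) (((r.val i j).val : ℕ) : ZMod N) = r.val i j
      rw [map_natCast, ZMod.natCast_zmod_val]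
    have hMu : IsUnit M.det := isUnit_of_castHom (dvd_three B.N)
      (by obtain ⟨k, hk⟩ := Period.three_dvd_N B; exact ⟨k, by show B.N ^ 2 = 3 * B.N * k; rw [sq]; nth_rewrite 1 [hk]; ring⟩) (by
        rw [RingHom.map_det, RingHom.mapMatrix_apply, hM]
        exact (Matrix.isUnit_iff_isUnit_det _).1 r.isUnit)
    refine ⟨Matrix.GeneralLinearGroup.mk'' M hMu, Units.ext ?_⟩
    ext i j : 1
    show toQQ (dvd_three B.N) (algebraMap (ZMod N) (EMod N) (M i j)) = zmodToEis n (r.val i j)
    rw [← toQ_algebraMap]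
    show toQ n (mapQ (ZMod.castHom (dvd_three B.N) (ZMod n)) _) = _
    congr 1
    refine QuadraticAlgebra.ext ?_ ?_
    · show ZMod.castHom (dvd_three B.N) (ZMod n) (M i j) = r.val i j
      exact congrFun (congrFun hM i) j
    · exact map_zero (ZMod.castHom (dvd_three B.N) (ZMod n))
  choose x hx using hlift
  have hshift : ∀ r, ∑ h, Form.wc N h * f (levelHom B.N h) =
      ∑ h, Form.wc N h * f (levelHom B.N h * zmodMat n r) := fun r ↦ by
    rw [← Equiv.sum_comp (Equiv.mulRight
      (Matrix.GeneralLinearGroup.map (algebraMap (ZMod N) (EMod N)) (x r)))]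
    refine Finset.sum_congr rfl fun h _ ↦ ?_
    simp only [Equiv.coe_mulRight]
    rw [wc_mul_rational, map_mul, hx]
  have havg : (Fintype.card (GL (Fin 2) (ZMod n)) : ℂ) *
      ∑ h, Form.wc N h * f (levelHom B.N h) = (∑ h, Form.wc N h) * B.period := by
    calc (Fintype.card (GL (Fin 2) (ZMod n)) : ℂ) * ∑ h, Form.wc N h * f (levelHom B.N h)
        = ∑ r : GL (Fin 2) (ZMod n), ∑ h, Form.wc N h * f (levelHom B.N h * zmodMat n r) := by
          rw [← Finset.sum_congr rfl fun r _ ↦ hshift r]
          simp [Finset.sum_const, Finset.card_univ]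
      _ = _ := by
          rw [Finset.sum_comm, Finset.sum_mul]
          refine Finset.sum_congr rfl fun h _ ↦ ?_
          by_cases hh : Form.wc N h = 0
          · simp [hh]
          obtain ⟨u, r₀, hr₀⟩ := exists_levelHom_eq hh
          have e : ∀ r, levelHom B.N h * zmodMat n r =
              zmodMat n (r₀ * r) * Matrix.GeneralLinearGroup.scalar (Fin 2) u := fun r ↦ by
            rw [hr₀, map_mul, mul_assoc, mul_assoc]
            congr 1
            apply Units.ext
            show (Matrix.scalar (Fin 2) (u : EisInt ⧸ eisIdeal n)) * _ = _ * Matrix.scalar (Fin 2) _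
            exact Matrix.scalar_comm _ (fun _ ↦ Commute.all _ _) _
          simp only [e, hscal]
          rw [← Finset.mul_sum, hP]
          congr 1
          exact Equiv.sum_comp (Equiv.mulLeft r₀) (fun r ↦ f (zmodMat n r))
  have hcard : ∑ h, Form.wc N h ≠ 0 := by
    have e : ∑ h, Form.wc N h = ((Finset.univ.filter fun h ↦
        ∃ a : (ZMod N)ˣ, actR h⁻¹ (vJ (ZMod N)) = (a : ZMod N) • vJ (ZMod N)).card : ℂ) := by
      rw [Finset.natCast_card_filter]
      exact Finset.sum_congr rfl fun h _ ↦ by simp [Form.wc, w3]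
    rw [e, Nat.cast_ne_zero]
    refine Finset.card_ne_zero.2 ⟨1, Finset.mem_filter.2 ⟨Finset.mem_univ _, 1, ?_⟩⟩
    rw [inv_one, actR_one, Units.val_one, one_smul]
  simp only [hslab]
  intro h0
  rw [h0, mul_zero] at havg
  exact mul_ne_zero hcard hB havg.symm

theorem mod_three_eq_one {p : ℕ} (hp : p.Prime) (hpn : ¬ p ∣ B.N) (hs : S.SplitsInF p) :
    p % 3 = 1 := by
  have hne : p ≠ 3 := fun h ↦ hpn (h ▸ Period.three_dvd_N B)
  have h1 := (Period.splitsInF_iff S (p := ⟨p, hp⟩) (Period.not_dvd_m B hpn)).1 hs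
  have h2 := FermatAgent.LT.Period.det_frobImage S.det_eq (p := ⟨p, hp⟩) hne
  have h3 : ((p : ℕ) : ZMod 3) = ((1 : ℕ) : ZMod 3) := by
    rw [← h2, Nat.cast_one]
    exact h1.1
  rw [ZMod.natCast_eq_natCast_iff'] at h3
  simpa using h3

end FermatAgent.LTG.Lift

end
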