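import Fermat.Agent.LT.General.Lift.Adapter
import Fermat.Agent.LT.General.Period.Main

set_option autoImplicit false

/-!
# The weight one source of a general Bianchi form
-/

noncomputable section

open ModularFormClass CongruenceSubgroup UpperHalfPlane
open scoped MatrixGroups ModularForm
open FermatAgent.LT (q8Trace)

namespace FermatAgent.LTG

theorem exists_weightOne {S : Setup} (B : BianchiForm S) [NeZero B.N] (hB : B.period ≠ 0) :
    Nonempty (WeightOneSource S) := by
  set M := 27 * B.N ^ 2 with hMdef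
  have hMpos : 0 < M := Nat.mul_pos (by norm_num) (pow_pos (Nat.pos_of_ne_zero B.N_ne_zero) 2)
  have : NeZero M := ⟨hMpos.ne'⟩
  have hdvd : 3 * (3 * B.N) ^ 2 ∣ M := ⟨1, by rw [hMdef]; ring⟩
  set F := Lift.formOf B
  set g := F.cuspForm (FermatAgent.LT.Lift.scalarInv_w3 (3 * B.N)) hdvd
  refine ⟨{
    M := M
    M_pos := hMpos
    three_dvd := ⟨9 * B.N ^ 2, by rw [hMdef]; ring⟩
    m_dvd := B.m_dvd.trans ⟨27 * B.N, by rw [hMdef]; ring⟩
    f := g
    f_ne_zero := ?_
    character := ?_
    exc := B.exc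
    hecke := ?_ }⟩
  · intro h0
    obtain ⟨k, hk, hne⟩ := F.exists_coef_ne_zero (dvd_mul_right 3 B.N)
      (Lift.sum_wc_slab_ne_zero B hB)
    have hq := F.qCoeff_cuspForm (FermatAgent.LT.Lift.scalarInv_w3 (3 * B.N)) hdvd 3
      (t := k / (2 * Real.pi)) (by positivity)
    rw [show 2 * Real.pi * (k / (2 * Real.pi)) = k by field_simp, Nat.cast_ofNat] at hq
    have hz : qCoeff g 3 = 0 := by
      rw [h0, qCoeff, FunLike.coe_zero, UpperHalfPlane.qExpansion_zero, map_zero]
    rw [hz] at hq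
    exact hne ((mul_eq_zero.1 hq.symm).resolve_left (Complex.ofReal_ne_zero.2 (by positivity)))
  · intro γ hγ
    exact F.lift_slash_gamma0_ofFun (FermatAgent.LT.Lift.scalarInv_w3 (3 * B.N)) hMpos hdvd γ hγ
  · intro p hp hexc hpM hs A hA σ hσ n
    have hpm : ¬ p ∣ B.N := fun h ↦ hpM (h.trans ⟨27 * B.N, by rw [hMdef]; ring⟩)
    obtain ⟨π, hπ⟩ := FermatAgent.LT.Period.exists_normSq_eq hp (Lift.mod_three_eq_one B hp hpm hs)
    obtain ⟨x, rfl⟩ := FermatAgent.LT.Lift.eisE_surjective π
    have hn : x.norm = (p : ℤ) := by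
      rw [FermatAgent.LT.Lift.coe_eisE, FermatAgent.LT.Lift.normSq_embC] at hπ
      exact_mod_cast hπ
    have hev := Lift.isEigen_formOf B p x hp hpm hn
    have key := FermatAgent.LT.Lift.Form.hecke_qCoeff F (Lift.splitPrimeOf (Period.three_dvd_N B) p x hp hpm hn) hev
      (FermatAgent.LT.Lift.scalarInv_w3 (3 * B.N)) hdvd n
    have hc := B.c_split _ p (FermatAgent.LT.Period.prime_of_normSq hp hπ) hp hexc hpm
      (FermatAgent.LT.Period.dvd_of_normSq hπ) hπ hs A hA σ hσ
    rw [hc] at key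
    exact key

/-- A Bianchi form gives a weight one source. -/
theorem BianchiForm.nonempty_weightOne {S : Setup} (B : BianchiForm S) :
    Nonempty (WeightOneSource S) :=
  haveI : NeZero B.N := ⟨B.N_ne_zero⟩
  exists_weightOne B B.period_ne_zero

end FermatAgent.LTG

end
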